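import Mathlib
import Fermat.Agent.LT.H556.A0
import Fermat.Agent.LT.T1.Spec
import Fermat.Agent.LT.T5.Spec

/-!
# Row LT, tower T5, leaf T5.07 `LeafTwFinite` (owner helper29): SUB-SPEC — OFF-MAIN

Bytes: `T5/Spec.lean` = v4 FREEZE helper32@eb7e4c138 (sha256 f2d97e70), `T1/Spec.lean` =
helper54 v1 (sha256 e8ae48d6), `H556/A0.lean` (sha256 66d3374a), byte-identical copies.

v2 of this file (port to T5/Spec v4): the Props `RayBoundC`, `SiegelTwC`, `TwBoundC` take
`HasCompactSupport φ` in place of `IsTestFn 𝔫 φ` (the only field which the proofs use), so they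
do not depend on the `K_∞`-type `τ`.  `UpperNotRegC`, `BoxC`, `MahlerC`, `RatFiniteC`, `RaySlabC`
are UNCHANGED (same bytes as in v1, sha256 08555f0f).

## Route (NO twisted centraliser, NO `EllipticCompactC`, NO norm map of T6)

The diagonal of the twisted kernel of `|φ|` is BOUNDED on `GL₂(𝔸_K)`, with finitely many
contributing `δ` up to σ-conjugacy, by reduction theory:

1. `RayBoundC`   : `φ(x⁻¹ δ σ(x) rᵐ) ≠ 0 ⇒ |m| ≤ M` (module of the determinant).
2. `SiegelTwC`   : if `x` has height `> c₁` then only upper triangular `δ` contribute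
                   (the lower left entry of `b⁻¹ δ σ(b) rᵐ` is an idele of module `≥ t/2·2^{-M/2}`,
                   and lies in a compact set: `BoxC`).
3. `UpperNotRegC`: the norm of an upper triangular `δ` has its eigenvalues in the fixed field, so
                   it is not elliptic regular: by σ-regularity NOTHING contributes at height `> c₁`.
4. `MahlerC`     : the part of the slab of height in `[c₀, c₁]` is `GL₂(K) · Ω`, `Ω` compact.
5. `RatFiniteC`  : `GL₂(K)` meets a compact set in a finite set (`T1.DiscreteC`).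

`twBound_of_leaves` (PROVED here) : the leaves give `TwBoundC`: a finite set `S ⊂ GL₂(K)` and
`M` such that for every `x` there is `γ₀` with: every contributing pair `(δ, m)` at `x` has
`|m| ≤ M` and `γ₀⁻¹ δ σ(γ₀) ∈ S`.

The passage `TwBoundC ⇒ T5.LeafTwFinite` (finiteness of the classes; integrability on every
strict fundamental domain of the σ-centraliser, by the orbit unfolding `LT/H29/Unfold.lean` and
`μ F < ∞`) is `LT/T5/H29/TwFinite.lean`.
-/

set_option autoImplicit false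

open IsDedekindDomain NumberField MeasureTheory
open scoped MatrixGroups Pointwise

noncomputable section

namespace Fermat.Agent.LT.T5.H29

open Fermat.Agent.LT.H556.A0 Fermat.Agent.LT.T5 Fermat.Agent.LT

attribute [local instance] Fermat.Agent.LT.T5.instMeasurableSpaceG

variable {K : Type} [Field K] [NumberField K]

/-! ## The sub-leaves -/

/-- **T5.07a (ray bound).**  `f = ‖det ·‖_𝔸` is continuous and positive on `GL₂(𝔸_K)`
(`T1.AdNormC`), so bounded above and below on the compact support of `φ`;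
`f(x⁻¹ δ σ(x) rᵐ) = f(σ x) / f(x) · 2ᵐ` and `f(σ x)/f(x) ∈ (1/2, 2)` by `AutPreserves.slab`,
`AutPreserves.ray` (move `x` into the slab by a power of `r`).  ≈ 250 lines. -/
def RayBoundC (s : AdelicAut K) (𝔫 : Ideal (𝓞 K)) : Prop :=
  T1.AdNormC K → ∀ (μ : Measure (G K)) (r : G K), IsRayGen r → AutPreserves s 𝔫 μ r →
    ∀ φ : G K → ℂ, HasCompactSupport φ →
      ∃ M : ℕ, ∀ (x : G K) (δ : GL (Fin 2) K) (m : ℤ),
        φ (x⁻¹ * ratG δ * s.onG x * r ^ m) ≠ 0 → m.natAbs ≤ M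

/-- **T5.07b (upper triangular elements are not σ-regular).**  For upper triangular `δ` the norm
`δ σ(δ) ⋯ σ^{l-1}(δ)` is upper triangular with diagonal entries `N(a), N(d)` fixed by `σ`
(`σ^l = 1`), i.e. in `k`; a polynomial of degree `2` over `k` with a root in `k` is not
irreducible.  Pure algebra, ≈ 150 lines. -/
def UpperNotRegC (s : AdelicAut K) (l : ℕ) (k : Subfield K) : Prop :=
  IsCyclicOfDegree s l k → ∀ δ : GL (Fin 2) K, (δ : Matrix (Fin 2) (Fin 2) K) 1 0 = 0 →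
    ¬ IsEllRegOver k (s.normUpTo l δ)

/-- **T5.07c (box).**  The module is bounded above on the ideles which lie in a compact subset
of the ADELE ring.  (A compact subset of `𝔸_K` lies in a box `∏ {|x_v| ≤ B_v}`, `B_v = 1` for
almost all `v`; or: `μ(u S) = ‖u‖ μ(S)` and `u S ⊆ Q S`.)  ≈ 200 lines. -/
def BoxC (K : Type) [Field K] [NumberField K] : Prop :=
  ∀ Q : Set (Adl K), IsCompact Q →
    ∃ B : ℝ, ∀ u : (Adl K)ˣ, (u : Adl K) ∈ Q → T1.adNorm K (u : Adl K) ≤ B

/-- **T5.07d (twisted Siegel estimate).**  `y = b k` (Iwasawa, `T1.HasHeight`), so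
`b⁻¹ δ σ(b) rᵐ ∈ K⁰ · supp φ · σ(K⁰)⁻¹` (compact: `K⁰` is compact, helper919
`isCompact_stdCompact919`); its lower left entry is `δ₂₁ σ(b₁₁) b₂₂⁻¹ ρᵐ`, an idele of module
`≥ t / 2 · 2^{-M/2}` if `δ₂₁ ≠ 0` (product formula; `‖σ u‖ ≥ ‖u‖ / 2` from
`AutPreserves.slab`); `BoxC` bounds it.  ≈ 500 lines. -/
def SiegelTwC (s : AdelicAut K) (𝔫 : Ideal (𝓞 K)) : Prop :=
  T1.T1Out K → BoxC K → ∀ (μ : Measure (G K)) (r : G K), IsRayGen r → AutPreserves s 𝔫 μ r →
    ∀ φ : G K → ℂ, HasCompactSupport φ → ∀ M : ℕ,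
      ∃ c₁ : ℝ, ∀ (y : G K) (t : ℝ), T1.HasHeight K y t → c₁ < t →
        ∀ (δ : GL (Fin 2) K) (m : ℤ), m.natAbs ≤ M →
          φ (y⁻¹ * ratG δ * s.onG y * r ^ m) ≠ 0 → (δ : Matrix (Fin 2) (Fin 2) K) 1 0 = 0

/-- **T5.07e (Mahler compactness).**  The part of the slab of height in `[c₀, c₁]` is
`GL₂(K) · Ω` with `Ω` compact: `T1.SiegelCompactC` (`y = β z a ω`, `s` in a compact interval),
`‖det y‖ ∈ [1, 2)` bounds the module of the central `z`, and `T1.FujisakiC` makes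
`z ∈ Z(K) · ray · compact`.  Tools: helper919 `SiegelTools.lean` (`rayAdl919`, `scalarG919`).
≈ 400 lines. -/
def MahlerC (K : Type) [Field K] [NumberField K] : Prop :=
  T1.T1Out K → ∀ c₀ c₁ : ℝ, 0 < c₀ →
    ∃ Ω : Set (G K), IsCompact Ω ∧
      ∀ y ∈ slab K, ∀ t : ℝ, T1.HasHeight K y t → c₀ ≤ t → t ≤ c₁ →
        ∃ γ : GL (Fin 2) K, ratG γ * y ∈ Ω

/-- **T5.07f (rational points in a compact set).**  `T1.DiscreteC`: a closed discrete subset
meets a compact set in a finite set; `ratG` is injective.  ≈ 60 lines. -/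
def RatFiniteC (K : Type) [Field K] [NumberField K] : Prop :=
  T1.DiscreteC K → ∀ C : Set (G K), IsCompact C → {δ : GL (Fin 2) K | ratG δ ∈ C}.Finite

/-- **T5.07g (the ray and the slab).**  The generator `r` of the discrete ray is central, its
powers lie on the central ray, every element can be moved into the slab by a power of `r`
(`‖det r‖_𝔸 = 2`), and the slab is invariant under `GL₂(K)` (product formula).  ≈ 250 lines. -/
def RaySlabC (K : Type) [Field K] [NumberField K] : Prop :=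
  T1.AdNormC K →
    (∀ r : G K, IsRayGen r → (∀ g : G K, g * r = r * g) ∧ (∀ m : ℤ, IsCentralRay (r ^ m)) ∧
      ∀ x : G K, ∃ j : ℤ, x * r ^ j ∈ slab K) ∧
    ∀ (γ : GL (Fin 2) K) (x : G K), x ∈ slab K → ratG γ * x ∈ slab K

/-- All sub-leaves of T5.07. -/
structure TwLeaves (s : AdelicAut K) (l : ℕ) (k : Subfield K) (𝔫 : Ideal (𝓞 K)) : Prop where
  rayBound : RayBoundC s 𝔫
  upperNotReg : UpperNotRegC s l k
  box : BoxC K
  siegelTw : SiegelTwC s 𝔫
  mahler : MahlerC K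
  ratFinite : RatFiniteC K
  raySlab : RaySlabC K

/-! ## The uniform bound -/

/-- **The uniform bound on the diagonal.**  There are a finite set `S ⊂ GL₂(K)` and `M` such
that for every `x` there is `γ₀ ∈ GL₂(K)` with: every pair `(δ, m)` which contributes to the
diagonal of the twisted kernel at `x` has `|m| ≤ M` and `γ₀⁻¹ δ σ(γ₀) ∈ S`. -/
def TwBoundC (s : AdelicAut K) (l : ℕ) (k : Subfield K) (𝔫 : Ideal (𝓞 K)) : Prop :=
  IsCyclicOfDegree s l k →
  ∀ (μ : Measure (G K)) (r : G K), IsRayGen r → AutPreserves s 𝔫 μ r →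
    ∀ φ : G K → ℂ, HasCompactSupport φ → IsTwRegular s l k φ →
      ∃ (S : Finset (GL (Fin 2) K)) (M : ℕ), ∀ x : G K, ∃ γ₀ : GL (Fin 2) K,
        ∀ (δ : GL (Fin 2) K) (m : ℤ), φ (x⁻¹ * ratG δ * s.onG x * r ^ m) ≠ 0 →
          m.natAbs ≤ M ∧ γ₀⁻¹ * δ * s.onRat γ₀ ∈ S

/-! ## The top: the leaves give the uniform bound -/

section Top

variable (s : AdelicAut K) (r : G K)

/-- The argument of `φ` on the diagonal. -/
def twArg (x : G K) (δ : GL (Fin 2) K) (m : ℤ) : G K :=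
  x⁻¹ * ratG δ * s.onG x * r ^ m

variable {s r}

theorem twArg_def29 (x : G K) (δ : GL (Fin 2) K) (m : ℤ) :
    twArg s r x δ m = x⁻¹ * ratG δ * s.onG x * r ^ m := rfl

/-- Change of `x` by a rational element. -/
theorem twArg_rat29 {𝔫 : Ideal (𝓞 K)} {μ : Measure (G K)} (hP : AutPreserves s 𝔫 μ r)
    (γ : GL (Fin 2) K) (x : G K) (δ : GL (Fin 2) K) (m : ℤ) :
    twArg s r (ratG γ * x) (γ * δ * (s.onRat γ)⁻¹) m = twArg s r x δ m := by
  simp only [twArg, map_mul, map_inv, mul_inv_rev, hP.rat]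
  simp only [mul_assoc, inv_mul_cancel_left]

/-- Change of `x` by a power of the central, `σ`-fixed `r`. -/
theorem twArg_ray29 {𝔫 : Ideal (𝓞 K)} {μ : Measure (G K)} (hP : AutPreserves s 𝔫 μ r)
    (hrc : ∀ g : G K, g * r = r * g) (x : G K) (j : ℤ) (δ : GL (Fin 2) K) (m : ℤ) :
    twArg s r (x * r ^ j) δ m = twArg s r x δ m := by
  have hc : ∀ g : G K, Commute g (r ^ j) := fun g => (show Commute g r from hrc g).zpow_right j
  have hc' : ∀ g : G K, Commute (r ^ j)⁻¹ g := fun g => ((hc g).symm).inv_left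
  simp only [twArg, map_mul, map_zpow, hP.ray, mul_inv_rev]
  calc (r ^ j)⁻¹ * x⁻¹ * ratG δ * (s.onG x * r ^ j) * r ^ m
      = (r ^ j)⁻¹ * ((x⁻¹ * ratG δ * s.onG x) * r ^ j) * r ^ m := by simp only [mul_assoc]
    _ = (r ^ j)⁻¹ * (r ^ j * (x⁻¹ * ratG δ * s.onG x)) * r ^ m := by
        rw [(hc (x⁻¹ * ratG δ * s.onG x)).eq]
    _ = x⁻¹ * ratG δ * s.onG x * r ^ m := by rw [inv_mul_cancel_left]

/-- Recovering `δ` from the argument. -/
theorem ratG_eq_of_twArg29 (x : G K) (δ : GL (Fin 2) K) (m : ℤ) :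
    ratG δ = x * twArg s r x δ m * r ^ (-m) * (s.onG x)⁻¹ := by
  simp only [twArg, zpow_neg, mul_assoc, mul_inv_cancel, mul_one, mul_inv_cancel_left]

end Top

/-- **THE UNIFORM BOUND from the sub-leaves** (and the output of tower T1). -/
theorem twBound_of_leaves (s : AdelicAut K) (l : ℕ) (k : Subfield K) (𝔫 : Ideal (𝓞 K))
    (hT : T1.T1Out K) (L : TwLeaves s l k 𝔫) : TwBoundC s l k 𝔫 := by
  intro hcyc μ r hr hP φ ht hreg
  obtain ⟨M, hM⟩ := L.rayBound hT.adNorm μ r hr hP φ ht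
  obtain ⟨c₁, hc₁⟩ := L.siegelTw hT L.box μ r hr hP φ ht M
  obtain ⟨c₀, hc₀pos, hred⟩ := hT.reduction
  obtain ⟨Ω, hΩ, hΩcov⟩ := L.mahler hT c₀ c₁ hc₀pos
  obtain ⟨hray, hslabinv⟩ := L.raySlab hT.adNorm
  obtain ⟨hrc, hrcr, hrslab⟩ := hray r hr
  -- the compact set which contains all the relevant rational points
  have hC : IsCompact (tsupport φ) := ht
  have hRfin : {m : ℤ | m.natAbs ≤ M}.Finite := by
    refine (Set.finite_Icc (-(M : ℤ)) (M : ℤ)).subset fun m hm => ?_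
    simp only [Set.mem_ofPred_eq] at hm
    rw [Set.mem_Icc]
    constructor <;> omega
  have hR : IsCompact ((fun m : ℤ => r ^ (-m)) '' {m : ℤ | m.natAbs ≤ M}) :=
    (hRfin.image _).isCompact
  have hT2 : T2Space (G K) := hT.locComp.2.2.1
  have hΩ' : IsCompact (s.onG '' Ω)⁻¹ := (hΩ.image hP.cont).inv
  have hC₂ : IsCompact
      (Ω * tsupport φ * ((fun m : ℤ => r ^ (-m)) '' {m : ℤ | m.natAbs ≤ M}) * (s.onG '' Ω)⁻¹) :=
    ((hΩ.mul hC).mul hR).mul hΩ'
  have hfin := L.ratFinite hT.discrete _ hC₂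
  refine ⟨hfin.toFinset, M, fun x => ?_⟩
  by_cases hx : ∃ (δ : GL (Fin 2) K) (m : ℤ), φ (x⁻¹ * ratG δ * s.onG x * r ^ m) ≠ 0
  · obtain ⟨δ₁, m₁, h₁⟩ := hx
    obtain ⟨j, hj⟩ := hrslab x
    obtain ⟨γ, t, hht, hct⟩ := hred (x * r ^ j)
    -- the key identity
    have key : ∀ (γ' : GL (Fin 2) K) (δ : GL (Fin 2) K) (m : ℤ),
        twArg s r (ratG γ' * (x * r ^ j)) (γ' * δ * (s.onRat γ')⁻¹) m = twArg s r x δ m :=
      fun γ' δ m => (twArg_rat29 hP γ' (x * r ^ j) δ m).trans (twArg_ray29 hP hrc x j δ m)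
    have htc : t ≤ c₁ := by
      by_contra hlt
      push Not at hlt
      have h2 := hc₁ (T1.ratG K γ * (x * r ^ j)) t hht hlt (γ * δ₁ * (s.onRat γ)⁻¹) m₁
        (hM x δ₁ m₁ h₁) (by
          have := key γ δ₁ m₁
          rw [twArg_def29, twArg_def29] at this
          show φ ((ratG γ * (x * r ^ j))⁻¹ * ratG (γ * δ₁ * (s.onRat γ)⁻¹) *
            s.onG (ratG γ * (x * r ^ j)) * r ^ m₁) ≠ 0
          rw [this]
          exact h₁)
      have h3 := hreg (ratG γ * (x * r ^ j)) (γ * δ₁ * (s.onRat γ)⁻¹) (r ^ m₁) (hrcr m₁) (by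
          have := key γ δ₁ m₁
          rw [twArg_def29, twArg_def29] at this
          rw [this]
          exact h₁)
      exact L.upperNotReg hcyc _ h2 h3
    have hyslab : ratG γ * (x * r ^ j) ∈ slab K := hslabinv γ _ hj
    obtain ⟨γ', hγ'⟩ := hΩcov (ratG γ * (x * r ^ j)) hyslab t hht hct htc
    have hω : ratG (γ' * γ) * (x * r ^ j) ∈ Ω := by
      rw [map_mul, mul_assoc]
      exact hγ'
    refine ⟨(γ' * γ)⁻¹, fun δ m hδ => ⟨hM x δ m hδ, ?_⟩⟩
    rw [Set.Finite.mem_toFinset, Set.mem_ofPred_eq]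
    have hg : twArg s r x δ m ∈ tsupport φ := subset_tsupport _ hδ
    have e1 : ratG ((γ' * γ)⁻¹⁻¹ * δ * s.onRat (γ' * γ)⁻¹)
        = ratG (γ' * γ) * (x * r ^ j)
          * twArg s r (ratG (γ' * γ) * (x * r ^ j)) ((γ' * γ) * δ * (s.onRat (γ' * γ))⁻¹) m
          * r ^ (-m) * (s.onG (ratG (γ' * γ) * (x * r ^ j)))⁻¹ := by
      rw [← ratG_eq_of_twArg29, inv_inv, map_inv]
    rw [e1, key]
    exact Set.mul_mem_mul (Set.mul_mem_mul (Set.mul_mem_mul hω hg)
      (Set.mem_image_of_mem _ (hM x δ m hδ)))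
      (Set.inv_mem_inv.2 (Set.mem_image_of_mem _ hω))
  · push Not at hx
    exact ⟨1, fun δ m h => absurd (hx δ m) h⟩

end Fermat.Agent.LT.T5.H29

end
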