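import Mathlib
import Fermat.Agent.LT.H556.A0
import Fermat.Agent.LT.T1.Spec
import Fermat.Agent.LT.T5.Spec
import Fermat.Agent.LT.H29.Unfold
import Fermat.Agent.LT.T5.H29.TwSpec

/-!
# Row LT, tower T5, leaf T5.07 `LeafTwFinite` (owner helper29): the ASSEMBLY (T5.07h) — OFF-MAIN

`leafTwFinite_of_twBound : T1.T1Out K → RaySlabC K → TwBoundC s l k 𝔫 →
  T5.LeafTwFinite s l k 𝔫 τ`, and with `twBound_of_leaves` (TwSpec.lean):
`leafTwFinite_of_leaves : T1.T1Out K → TwLeaves s l k 𝔫 → T5.LeafTwFinite s l k 𝔫 τ`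
(T5/Spec v4 FREEZE, sha256 f2d97e70; every `K_∞`-type `τ`).

* finiteness of the σ-conjugacy classes meeting the diagonal: every contributing `δ` is
  σ-conjugate to an element of the finite set `S` of `TwBoundC`;
* integrability of `x ↦ φ♭(x⁻¹ δ σ(x))` on every strict fundamental domain `Fδ` of the
  σ-centraliser in the slab: orbit unfolding (`LT/H29/Unfold.lean`) for the countable group
  `GL₂(K)` acting on `(GL₂(𝔸_K), μ|slab)` by left translation and on itself by σ-conjugation: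
  `∫_{Fδ} |φ♭(x⁻¹ δ σ(x))| = ∑_{δ' ∼ δ} ∫_F |φ♭(x⁻¹ δ' σ(x))| ≤ #S (2M+1) sup|φ| · μ(F) < ∞`.
-/

set_option autoImplicit false

open IsDedekindDomain NumberField MeasureTheory
open scoped MatrixGroups Pointwise ENNReal

noncomputable section

namespace Fermat.Agent.LT.T5.H29

open Fermat.Agent.LT.H556.A0 Fermat.Agent.LT.T5 Fermat.Agent.LT

attribute [local instance] Fermat.Agent.LT.T5.instMeasurableSpaceG

variable {K : Type} [Field K] [NumberField K]

/-! ## Instances -/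

/-- A number field is countable. -/
theorem countable_field29 (K : Type) [Field K] [NumberField K] : Countable K :=
  (Module.finBasis ℚ K).equivFun.toEquiv.countable_iff.2 inferInstance

/-- `GL₂(K)` is countable. -/
theorem countable_GL29 (K : Type) [Field K] [NumberField K] : Countable (GL (Fin 2) K) := by
  have : Countable K := countable_field29 K
  have : Countable (Matrix (Fin 2) (Fin 2) K) :=
    (inferInstance : Countable (Fin 2 → Fin 2 → K))
  exact Function.Injective.countable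
    (f := fun g : GL (Fin 2) K => (g : Matrix (Fin 2) (Fin 2) K)) Units.val_injective

/-- The Borel σ-algebra of `GL₂(𝔸_K)` is the Borel σ-algebra. -/
theorem borelSpace_G29 (K : Type) [Field K] [NumberField K] : BorelSpace (G K) := ⟨rfl⟩

/-- `GL₂(K)` acts on `GL₂(𝔸_K)` by left translation. -/
@[reducible] def ratAction29 (K : Type) [Field K] [NumberField K] :
    MulAction (GL (Fin 2) K) (G K) :=
  MulAction.compHom (G K) (ratG (K := K))

attribute [local instance] ratAction29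

theorem rat_smul_def29 (γ : GL (Fin 2) K) (x : G K) : γ • x = ratG γ * x := rfl

/-- `GL₂(K)` as a `GL₂(K)`-set for σ-conjugation `γ • δ = γ δ σ(γ)⁻¹`. -/
structure TwAct29 (s : AdelicAut K) where
  /-- the underlying element -/
  val : GL (Fin 2) K

theorem TwAct29.ext' {s : AdelicAut K} {a b : TwAct29 s} (h : a.val = b.val) : a = b := by
  cases a; cases b; cases h; rfl

/-- The σ-conjugation action. -/
instance twAction29 (s : AdelicAut K) : MulAction (GL (Fin 2) K) (TwAct29 s) where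
  smul γ δ := ⟨γ * δ.val * (s.onRat γ)⁻¹⟩
  one_smul δ := by
    apply TwAct29.ext'
    show 1 * δ.val * (s.onRat 1)⁻¹ = δ.val
    simp
  mul_smul γ γ' δ := by
    apply TwAct29.ext'
    show γ * γ' * δ.val * (s.onRat (γ * γ'))⁻¹
      = γ * (γ' * δ.val * (s.onRat γ')⁻¹) * (s.onRat γ)⁻¹
    simp [mul_assoc]

theorem tw_smul_val29 (s : AdelicAut K) (γ : GL (Fin 2) K) (δ : TwAct29 s) :
    (γ • δ).val = γ * δ.val * (s.onRat γ)⁻¹ := rfl

/-- The stabiliser for the σ-conjugation is the σ-centraliser of `T5/Spec.lean`. -/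
theorem mem_stabilizer_iff29 (s : AdelicAut K) (δ : GL (Fin 2) K) (γ : GL (Fin 2) K) :
    γ ∈ MulAction.stabilizer (GL (Fin 2) K) (⟨δ⟩ : TwAct29 s) ↔ γ ∈ twStab s δ := by
  rw [MulAction.mem_stabilizer_iff]
  constructor
  · intro h
    have h' : γ * δ * (s.onRat γ)⁻¹ = δ := congrArg TwAct29.val h
    show γ⁻¹ * δ * s.onRat γ = δ
    calc γ⁻¹ * δ * s.onRat γ = γ⁻¹ * (γ * δ * (s.onRat γ)⁻¹) * s.onRat γ := by rw [h']
      _ = δ := by simp [mul_assoc]
  · intro h
    have h' : γ⁻¹ * δ * s.onRat γ = δ := h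
    apply TwAct29.ext'
    show γ * δ * (s.onRat γ)⁻¹ = δ
    calc γ * δ * (s.onRat γ)⁻¹ = γ * (γ⁻¹ * δ * s.onRat γ) * (s.onRat γ)⁻¹ := by rw [h']
      _ = δ := by simp [mul_assoc]

/-! ## The slab -/

/-- The determinant `GL₂(𝔸_K) → 𝔸_Kˣ` is continuous. -/
theorem continuous_detU29 (K : Type) [Field K] [NumberField K] :
    Continuous (fun g : G K => (Matrix.GeneralLinearGroup.det g : (Adl K)ˣ)) := by
  rw [Units.continuous_iff]
  constructor
  · exact (Continuous.matrix_det Units.continuous_val : Continuous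
      fun g : G K => Matrix.det (g : Matrix (Fin 2) (Fin 2) (Adl K)))
  · have h : (fun g : G K => (((Matrix.GeneralLinearGroup.det g : (Adl K)ˣ)⁻¹ : (Adl K)ˣ) : Adl K))
        = fun g : G K => Matrix.det ((g⁻¹ : G K) : Matrix (Fin 2) (Fin 2) (Adl K)) := by
      funext g
      rw [← map_inv]
      rfl
    rw [h]
    exact Continuous.matrix_det (Units.continuous_val.comp continuous_inv)

/-- `g ↦ ‖det g‖_𝔸` is continuous. -/
theorem continuous_adNorm_det29 (hN : T1.AdNormC K) :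
    Continuous (fun g : G K => adNorm (Matrix.det (g : Matrix (Fin 2) (Fin 2) (Adl K)))) :=
  hN.2.2.2.comp (continuous_detU29 K)

/-- The slab is a Borel set. -/
theorem measurableSet_slab29 (hN : T1.AdNormC K) : MeasurableSet (slab K) := by
  have : BorelSpace (G K) := borelSpace_G29 K
  have h : slab K = (fun g : G K => adNorm (Matrix.det (g : Matrix (Fin 2) (Fin 2) (Adl K))))
      ⁻¹' (Set.Ico 1 2) := by
    ext g
    rfl
  rw [h]
  exact measurableSet_Ico.preimage (continuous_adNorm_det29 hN).measurable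

/-- The slab is invariant under `GL₂(K)`. -/
theorem smul_mem_slab_iff29 (hS : ∀ (γ : GL (Fin 2) K) (x : G K), x ∈ slab K → ratG γ * x ∈ slab K)
    (γ : GL (Fin 2) K) (x : G K) : γ • x ∈ slab K ↔ x ∈ slab K := by
  constructor
  · intro h
    have := hS γ⁻¹ (γ • x) h
    rwa [rat_smul_def29, ← mul_assoc, ← map_mul, inv_mul_cancel, map_one, one_mul] at this
  · exact hS γ x

/-! ## Measure theoretic instances -/

theorem measurableConstSMul29 (K : Type) [Field K] [NumberField K] :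
    MeasurableConstSMul (GL (Fin 2) K) (G K) := by
  have : BorelSpace (G K) := borelSpace_G29 K
  exact ⟨fun γ => (continuous_const_mul (ratG γ)).measurable⟩

/-- The restriction of a left Haar measure to the slab is invariant under `GL₂(K)`. -/
theorem smulInvariant_restrict29
    (hS : ∀ (γ : GL (Fin 2) K) (x : G K), x ∈ slab K → ratG γ * x ∈ slab K)
    (μ : Measure (G K)) [μ.IsMulLeftInvariant] :
    SMulInvariantMeasure (GL (Fin 2) K) (G K) (μ.restrict (slab K)) := by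
  have hB : BorelSpace (G K) := borelSpace_G29 K
  refine ⟨fun γ A hA => ?_⟩
  have hm : Measurable (fun x : G K => γ • x) := (continuous_const_mul (ratG γ)).measurable
  rw [Measure.restrict_apply (hm hA), Measure.restrict_apply hA]
  have e : (fun x : G K => γ • x) ⁻¹' A ∩ slab K = (fun x : G K => ratG γ * x) ⁻¹' (A ∩ slab K) := by
    ext x
    simp only [Set.mem_inter_iff, Set.mem_preimage]
    rw [← smul_mem_slab_iff29 hS γ x]
    rfl
  rw [e]
  exact measure_preimage_mul μ (ratG γ) (A ∩ slab K)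

/-- A strict fundamental domain in the slab is a fundamental domain for the restricted
measure. -/
theorem isFundamentalDomain_of_strict29 (hN : T1.AdNormC K) (μ : Measure (G K))
    (Γ' : Subgroup (GL (Fin 2) K)) {F : Set (G K)} (hFm : MeasurableSet F) (hFs : F ⊆ slab K)
    (hstrict : ∀ g ∈ slab K, ∃! γ : Γ', ratG (γ : GL (Fin 2) K) * g ∈ F) :
    IsFundamentalDomain Γ' F (μ.restrict (slab K)) where
  nullMeasurableSet := hFm.nullMeasurableSet
  ae_covers := by
    filter_upwards [ae_restrict_mem (measurableSet_slab29 hN)] with x hx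
    obtain ⟨γ, hγ, -⟩ := hstrict x hx
    exact ⟨γ, hγ⟩
  aedisjoint := by
    intro a b hab
    refine Disjoint.aedisjoint (Set.disjoint_left.2 fun x hxa hxb => hab ?_)
    rw [Set.mem_smul_set_iff_inv_smul_mem] at hxa hxb
    have hy : a⁻¹ • x ∈ slab K := hFs hxa
    obtain ⟨γ, -, hu⟩ := hstrict (a⁻¹ • x) hy
    have h1 : (1 : Γ') = γ := hu 1 (by
      show ratG ((1 : Γ') : GL (Fin 2) K) * (a⁻¹ • x) ∈ F
      rw [Subgroup.coe_one, map_one, one_mul]
      exact hxa)
    have h2 : b⁻¹ * a = γ := hu (b⁻¹ * a) (by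
      show ratG ((b⁻¹ * a : Γ') : GL (Fin 2) K) * (a⁻¹ • x) ∈ F
      have : ratG ((b⁻¹ * a : Γ') : GL (Fin 2) K) * (a⁻¹ • x) = b⁻¹ • x := by
        show ratG ((b⁻¹ * a : Γ') : GL (Fin 2) K) * (ratG ((a⁻¹ : Γ') : GL (Fin 2) K) * x)
          = ratG ((b⁻¹ : Γ') : GL (Fin 2) K) * x
        rw [← mul_assoc, ← map_mul, ← Subgroup.coe_mul, mul_assoc, mul_inv_cancel, mul_one]
      rw [this]
      exact hxb)
    have h3 : b⁻¹ * a = 1 := h2.trans h1.symm
    exact (inv_mul_eq_one.1 h3).symm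

/-- The same for the whole group `GL₂(K)`. -/
theorem isFundamentalDomain_of_strict_top29 (hN : T1.AdNormC K) (μ : Measure (G K))
    {F : Set (G K)} (hFm : MeasurableSet F) (hFs : F ⊆ slab K)
    (hstrict : ∀ g ∈ slab K, ∃! γ : GL (Fin 2) K, ratG γ * g ∈ F) :
    IsFundamentalDomain (GL (Fin 2) K) F (μ.restrict (slab K)) where
  nullMeasurableSet := hFm.nullMeasurableSet
  ae_covers := by
    filter_upwards [ae_restrict_mem (measurableSet_slab29 hN)] with x hx
    obtain ⟨γ, hγ, -⟩ := hstrict x hx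
    exact ⟨γ, hγ⟩
  aedisjoint := by
    intro a b hab
    refine Disjoint.aedisjoint (Set.disjoint_left.2 fun x hxa hxb => hab ?_)
    rw [Set.mem_smul_set_iff_inv_smul_mem] at hxa hxb
    have hy : a⁻¹ • x ∈ slab K := hFs hxa
    obtain ⟨γ, -, hu⟩ := hstrict (a⁻¹ • x) hy
    have h1 : (1 : GL (Fin 2) K) = γ := hu 1 (by
      show ratG (1 : GL (Fin 2) K) * (a⁻¹ • x) ∈ F
      rw [map_one, one_mul]
      exact hxa)
    have h2 : b⁻¹ * a = γ := hu (b⁻¹ * a) (by
      show ratG (b⁻¹ * a) * (a⁻¹ • x) ∈ F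
      have : ratG (b⁻¹ * a) * (a⁻¹ • x) = b⁻¹ • x := by
        show ratG (b⁻¹ * a) * (ratG a⁻¹ * x) = ratG b⁻¹ * x
        rw [← mul_assoc, ← map_mul, mul_assoc, mul_inv_cancel, mul_one]
      rw [this]
      exact hxb)
    have h3 : b⁻¹ * a = 1 := h2.trans h1.symm
    exact (inv_mul_eq_one.1 h3).symm

/-! ## The summands on the diagonal -/

section Terms

variable {s : AdelicAut K} {r : G K} {φ : G K → ℂ} {M : ℕ}

/-- The periodisation along the ray is a finite sum. -/
theorem twTerm_eq_sum29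
    (hM : ∀ (x : G K) (δ : GL (Fin 2) K) (m : ℤ),
      φ (x⁻¹ * ratG δ * s.onG x * r ^ m) ≠ 0 → m.natAbs ≤ M)
    (δ : GL (Fin 2) K) (x : G K) :
    twTerm r s φ δ x
      = ∑ m ∈ Finset.Icc (-(M : ℤ)) (M : ℤ), φ (x⁻¹ * ratG δ * s.onG x * r ^ m) := by
  show (∑' m : ℤ, φ (x⁻¹ * ratG δ * s.onG x * r ^ m)) = _
  refine tsum_eq_sum fun m hm => ?_
  by_contra h
  have := hM x δ m h
  apply hm
  rw [Finset.mem_Icc]
  constructor <;> omega

/-- If the summand does not vanish, some term of the periodisation does not vanish. -/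
theorem exists_ne_zero_of_twTerm29
    (hM : ∀ (x : G K) (δ : GL (Fin 2) K) (m : ℤ),
      φ (x⁻¹ * ratG δ * s.onG x * r ^ m) ≠ 0 → m.natAbs ≤ M)
    (δ : GL (Fin 2) K) (x : G K) (h : twTerm r s φ δ x ≠ 0) :
    ∃ m : ℤ, φ (x⁻¹ * ratG δ * s.onG x * r ^ m) ≠ 0 := by
  by_contra hcon
  push Not at hcon
  apply h
  rw [twTerm_eq_sum29 hM]
  exact Finset.sum_eq_zero fun m _ => hcon m

/-- The summand is continuous. -/
theorem continuous_twTerm29 {𝔫 : Ideal (𝓞 K)} {μ : Measure (G K)} (hP : AutPreserves s 𝔫 μ r)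
    (hφ : Continuous φ)
    (hM : ∀ (x : G K) (δ : GL (Fin 2) K) (m : ℤ),
      φ (x⁻¹ * ratG δ * s.onG x * r ^ m) ≠ 0 → m.natAbs ≤ M)
    (δ : GL (Fin 2) K) : Continuous (twTerm r s φ δ) := by
  have : twTerm r s φ δ
      = fun x => ∑ m ∈ Finset.Icc (-(M : ℤ)) (M : ℤ), φ (x⁻¹ * ratG δ * s.onG x * r ^ m) :=
    funext fun x => twTerm_eq_sum29 hM δ x
  rw [this]
  refine continuous_finsetSum _ fun m _ => hφ.comp ?_
  exact ((continuous_inv.mul continuous_const).mul hP.cont).mul continuous_const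

/-- The summand is bounded. -/
theorem norm_twTerm_le29 {C : ℝ} (hC : ∀ g : G K, ‖φ g‖ ≤ C)
    (hM : ∀ (x : G K) (δ : GL (Fin 2) K) (m : ℤ),
      φ (x⁻¹ * ratG δ * s.onG x * r ^ m) ≠ 0 → m.natAbs ≤ M)
    (δ : GL (Fin 2) K) (x : G K) : ‖twTerm r s φ δ x‖ ≤ (2 * M + 1 : ℕ) * C := by
  rw [twTerm_eq_sum29 hM]
  refine (norm_sum_le _ _).trans ?_
  refine (Finset.sum_le_sum fun m _ => hC _).trans ?_
  rw [Finset.sum_const, nsmul_eq_mul, Int.card_Icc]
  have : ((M : ℤ) + 1 - -(M : ℤ)).toNat = 2 * M + 1 := by omega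
  rw [this]

/-- The summand is invariant under the diagonal action of `GL₂(K)`. -/
theorem twTerm_smul29 {𝔫 : Ideal (𝓞 K)} {μ : Measure (G K)} (hP : AutPreserves s 𝔫 μ r)
    (γ : GL (Fin 2) K) (δ : TwAct29 s) (x : G K) :
    twTerm r s φ (γ • δ).val (γ • x) = twTerm r s φ δ.val x := by
  show flat r φ ((ratG γ * x)⁻¹ * ratG (γ * δ.val * (s.onRat γ)⁻¹) * s.onG (ratG γ * x))
    = flat r φ (x⁻¹ * ratG δ.val * s.onG x)
  congr 1
  simp only [map_mul, map_inv, mul_inv_rev, hP.rat]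
  simp only [mul_assoc, inv_mul_cancel_left]

end Terms

/-! ## The leaf -/

theorem countable_twAct29 (s : AdelicAut K) : Countable (TwAct29 s) := by
  have : Countable (GL (Fin 2) K) := countable_GL29 K
  exact Function.Injective.countable (f := fun δ : TwAct29 s => δ.val)
    fun _ _ h => TwAct29.ext' h

/-- **T5.07h: the uniform bound gives `LeafTwFinite`.** -/
theorem leafTwFinite_of_twBound (s : AdelicAut K) (l : ℕ) (k : Subfield K) (𝔫 : Ideal (𝓞 K))
    (τ : G K → ℂ) (hT : T1.T1Out K) (hRS : RaySlabC K) (hB : TwBoundC s l k 𝔫) :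
    LeafTwFinite s l k 𝔫 τ := by
  classical
  intro hcyc μ F r hF hr hP φ ht hreg
  obtain ⟨S, M, hSM⟩ := hB hcyc μ r hr hP φ ht.supp hreg
  have hM : ∀ (x : G K) (δ : GL (Fin 2) K) (m : ℤ),
      φ (x⁻¹ * ratG δ * s.onG x * r ^ m) ≠ 0 → m.natAbs ≤ M := fun x δ m h => by
    obtain ⟨γ₀, hγ₀⟩ := hSM x
    exact (hγ₀ δ m h).1
  -- every contributing `δ` is conjugate to an element of `S`
  have hconj : ∀ (x : G K) (δ : GL (Fin 2) K), twTerm r s φ δ x ≠ 0 →
      ∃ γ₀ : GL (Fin 2) K, ∀ δ' : GL (Fin 2) K, twTerm r s φ δ' x ≠ 0 →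
        γ₀⁻¹ * δ' * s.onRat γ₀ ∈ S := fun x _ _ => by
    obtain ⟨γ₀, hγ₀⟩ := hSM x
    refine ⟨γ₀, fun δ' hδ' => ?_⟩
    obtain ⟨m, hm⟩ := exists_ne_zero_of_twTerm29 hM δ' x hδ'
    exact (hγ₀ δ' m hm).2
  refine ⟨?_, ?_⟩
  · -- finiteness of the classes
    refine (S.image (Quotient.mk (twSetoid s))).finite_toSet.subset ?_
    rintro c ⟨δ, rfl, x, hx⟩
    obtain ⟨γ₀, hγ₀⟩ := hconj x δ hx
    rw [Finset.mem_coe, Finset.mem_image]
    refine ⟨γ₀⁻¹ * δ * s.onRat γ₀, hγ₀ δ hx, ?_⟩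
    exact Quotient.sound (twConj_symm s ⟨γ₀, rfl⟩)
  · -- integrability
    intro δ Fδ hFδ
    have hBorel : BorelSpace (G K) := borelSpace_G29 K
    have hcount : Countable (GL (Fin 2) K) := countable_GL29 K
    have hcountΔ : Countable (TwAct29 s) := countable_twAct29 s
    have hMC : MeasurableConstSMul (GL (Fin 2) K) (G K) := measurableConstSMul29 K
    have hSC : SecondCountableTopology (G K) := hT.locComp.2.2.2
    obtain ⟨-, hslab⟩ := hRS hT.adNorm
    have hHaar : μ.IsHaarMeasure := hF.haar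
    have hinv : SMulInvariantMeasure (GL (Fin 2) K) (G K) (μ.restrict (slab K)) :=
      smulInvariant_restrict29 hslab μ
    have hFD : IsFundamentalDomain (GL (Fin 2) K) F (μ.restrict (slab K)) :=
      isFundamentalDomain_of_strict_top29 hT.adNorm μ hF.meas hF.sub hF.strict
    have hstrict' : ∀ g ∈ slab K,
        ∃! γ : MulAction.stabilizer (GL (Fin 2) K) (⟨δ⟩ : TwAct29 s),
          ratG (γ : GL (Fin 2) K) * g ∈ Fδ := by
      intro g hg
      obtain ⟨γ, hγ, hu⟩ := hFδ.strict g hg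
      refine ⟨⟨γ.1, (mem_stabilizer_iff29 s δ γ.1).2 γ.2⟩, hγ, fun γ' hγ' => ?_⟩
      have h := hu ⟨γ'.1, (mem_stabilizer_iff29 s δ γ'.1).1 γ'.2⟩ hγ'
      have h' : (γ' : GL (Fin 2) K) = (γ : GL (Fin 2) K) := congrArg Subtype.val h
      exact Subtype.ext h'
    have hFDδ : IsFundamentalDomain (MulAction.stabilizer (GL (Fin 2) K) (⟨δ⟩ : TwAct29 s)) Fδ
        (μ.restrict (slab K)) :=
      isFundamentalDomain_of_strict29 hT.adNorm μ _ hFδ.meas hFδ.sub hstrict'
    -- the orbit unfolding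
    have hunf := Fermat.Agent.LT.H29.lintegral_enorm_orbit_unfold29 (μ := μ.restrict (slab K)) hFD
      (fun (δ' : TwAct29 s) (x : G K) => twTerm r s φ δ'.val x)
      (fun γ δ' x => twTerm_smul29 hP γ δ' x) ⟨δ⟩ hFDδ
    -- bounds
    obtain ⟨C, hC⟩ : ∃ C : ℝ, ∀ g : G K, ‖φ g‖ ≤ C :=
      ht.cont.bounded_above_of_compact_support ht.supp
    have hC0 : 0 ≤ C := (norm_nonneg _).trans (hC 1)
    have hcont : ∀ δ' : GL (Fin 2) K, Continuous (twTerm r s φ δ') := fun δ' =>
      continuous_twTerm29 hP ht.cont hM δ'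
    have hptw : ∀ x : G K, ∑' δ' : TwAct29 s, ‖twTerm r s φ δ'.val x‖ₑ
        ≤ S.card * ENNReal.ofReal ((2 * M + 1 : ℕ) * C) := by
      intro x
      by_cases hx : ∃ δ' : GL (Fin 2) K, twTerm r s φ δ' x ≠ 0
      · obtain ⟨δ₁, hδ₁⟩ := hx
        obtain ⟨γ₀, hγ₀⟩ := hconj x δ₁ hδ₁
        let T : Finset (TwAct29 s) :=
          S.image fun η => (⟨γ₀ * η * (s.onRat γ₀)⁻¹⟩ : TwAct29 s)
        have hT0 : ∀ δ' : TwAct29 s, δ' ∉ T → ‖twTerm r s φ δ'.val x‖ₑ = 0 := by
          intro δ' hδ'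
          by_contra h
          apply hδ'
          have h' : twTerm r s φ δ'.val x ≠ 0 := fun h0 => h (by rw [h0, enorm_zero])
          rw [Finset.mem_image]
          refine ⟨γ₀⁻¹ * δ'.val * s.onRat γ₀, hγ₀ δ'.val h', ?_⟩
          apply TwAct29.ext'
          show γ₀ * (γ₀⁻¹ * δ'.val * s.onRat γ₀) * (s.onRat γ₀)⁻¹ = δ'.val
          simp [mul_assoc]
        rw [tsum_eq_sum hT0]
        calc ∑ δ' ∈ T, ‖twTerm r s φ δ'.val x‖ₑ
            ≤ ∑ _δ' ∈ T, ENNReal.ofReal ((2 * M + 1 : ℕ) * C) := by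
              refine Finset.sum_le_sum fun δ' _ => ?_
              rw [← ofReal_norm]
              exact ENNReal.ofReal_le_ofReal (norm_twTerm_le29 hC hM δ'.val x)
          _ = T.card * ENNReal.ofReal ((2 * M + 1 : ℕ) * C) := by
              rw [Finset.sum_const, nsmul_eq_mul]
          _ ≤ S.card * ENNReal.ofReal ((2 * M + 1 : ℕ) * C) := by
              gcongr
              exact Finset.card_image_le
      · push Not at hx
        have : ∀ δ' : TwAct29 s, ‖twTerm r s φ δ'.val x‖ₑ = 0 := fun δ' => by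
          rw [hx δ'.val, enorm_zero]
        simp only [this, tsum_zero]
        exact bot_le
    -- the integral over `Fδ`
    have hres : (μ.restrict (slab K)).restrict Fδ = μ.restrict Fδ := by
      rw [Measure.restrict_restrict hFδ.meas, Set.inter_eq_left.2 hFδ.sub]
    have hmeasΔ : ∀ δ' : TwAct29 s,
        AEMeasurable (fun x => ‖twTerm r s φ δ'.val x‖ₑ) ((μ.restrict (slab K)).restrict F) :=
      fun δ' => (hcont δ'.val).measurable.enorm.aemeasurable
    refine ⟨(hcont δ).aestronglyMeasurable, ?_⟩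
    rw [hasFiniteIntegral_iff_enorm, ← hres]
    have h1 : ∫⁻ x in Fδ, ‖twTerm r s φ δ x‖ₑ ∂(μ.restrict (slab K))
        = ∑' δ' : MulAction.orbit (GL (Fin 2) K) (⟨δ⟩ : TwAct29 s),
            ∫⁻ x in F, ‖twTerm r s φ (δ' : TwAct29 s).val x‖ₑ ∂(μ.restrict (slab K)) :=
      hunf.symm
    rw [h1]
    calc ∑' δ' : MulAction.orbit (GL (Fin 2) K) (⟨δ⟩ : TwAct29 s),
          ∫⁻ x in F, ‖twTerm r s φ (δ' : TwAct29 s).val x‖ₑ ∂(μ.restrict (slab K))
        ≤ ∑' δ' : TwAct29 s, ∫⁻ x in F, ‖twTerm r s φ δ'.val x‖ₑ ∂(μ.restrict (slab K)) :=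
          ENNReal.tsum_comp_le_tsum_of_injective Subtype.val_injective
            (fun δ' : TwAct29 s => ∫⁻ x in F, ‖twTerm r s φ δ'.val x‖ₑ ∂(μ.restrict (slab K)))
      _ = ∫⁻ x in F, ∑' δ' : TwAct29 s, ‖twTerm r s φ δ'.val x‖ₑ ∂(μ.restrict (slab K)) :=
          (lintegral_tsum hmeasΔ).symm
      _ ≤ ∫⁻ _x in F, S.card * ENNReal.ofReal ((2 * M + 1 : ℕ) * C) ∂(μ.restrict (slab K)) :=
          lintegral_mono fun x => hptw x
      _ = S.card * ENNReal.ofReal ((2 * M + 1 : ℕ) * C) * (μ.restrict (slab K)) F := by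
          rw [lintegral_const, Measure.restrict_apply MeasurableSet.univ, Set.univ_inter]
      _ < ⊤ := by
          refine ENNReal.mul_lt_top
            (ENNReal.mul_lt_top (ENNReal.natCast_lt_top _) ENNReal.ofReal_lt_top) ?_
          exact lt_of_le_of_lt (Measure.restrict_apply_le _ _) hF.finite

/-- **T5.07 from its sub-leaves** (and the output of tower T1). -/
theorem leafTwFinite_of_leaves (s : AdelicAut K) (l : ℕ) (k : Subfield K) (𝔫 : Ideal (𝓞 K))
    (τ : G K → ℂ) (hT : T1.T1Out K) (L : TwLeaves s l k 𝔫) : LeafTwFinite s l k 𝔫 τ :=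
  leafTwFinite_of_twBound s l k 𝔫 τ hT L.raySlab (twBound_of_leaves s l k 𝔫 hT L)

end Fermat.Agent.LT.T5.H29




end
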