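import Mathlib
import Fermat.Agent.LT.H556.A0
import Fermat.Agent.LT.T1.Spec
import Fermat.Agent.LT.T5.Spec
import Fermat.Agent.LT.T5.H29.TwSpec
import Fermat.Agent.LT.T5.H29.TwFinite
import Fermat.Agent.LT.T5.H29.V4.RayBound675
import Fermat.Agent.LT.T5.H29.V4.SiegelTw151
import Fermat.Agent.LT.T5.H787.UpperNotReg
import Fermat.Agent.LT.T5.H472.Box
import Fermat.Agent.LT.T5.H965.RatFinite
import Fermat.Agent.LT.T5.H655.RaySlab
import Fermat.Agent.LT.T5.H501.Mahler

/-!
# Row LT, tower T5, leaf T5.07 `LeafTwFinite` (owner helper29): INTEGRATION — OFF-MAIN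

On T5/Spec v4 FREEZE (helper32@eb7e4c138, sha256 f2d97e70), T1/Spec v1 (e8ae48d6), A0 (66d3374a).

Sub-leaves, all proved: T5.07a `RayBoundC` helper675 (patched copy, one token), T5.07b
`UpperNotRegC` helper787, T5.07c `BoxC` helper472, T5.07d `SiegelTwC` helper151 (patched copy,
one token), T5.07f `RatFiniteC` helper965, T5.07g `RaySlabC` helper655, T5.07h assembly helper29.
T5.07e `MahlerC` helper501.  NOTHING OPEN.

`leafTwFinite29 : T1.T1Out K → T5.LeafTwFinite s l k 𝔫 τ` (every `s`, `l`, `k`, `𝔫`, `τ`).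
-/

set_option autoImplicit false

open IsDedekindDomain NumberField MeasureTheory
open scoped MatrixGroups

noncomputable section

namespace Fermat.Agent.LT.T5.H29

open Fermat.Agent.LT.H556.A0 Fermat.Agent.LT.T5 Fermat.Agent.LT

attribute [local instance] Fermat.Agent.LT.T5.instMeasurableSpaceG

variable {K : Type} [Field K] [NumberField K]

/-- The sub-leaves of T5.07, `MahlerC` excepted. -/
theorem twLeaves_of_mahler29 (s : AdelicAut K) (l : ℕ) (k : Subfield K) (𝔫 : Ideal (𝓞 K))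
    (hMah : MahlerC K) : TwLeaves s l k 𝔫 where
  rayBound := V4.H675.rayBound675 s 𝔫
  upperNotReg := H787.upperNotRegC787 s l k
  box := H472.boxC472 K
  siegelTw := V4.H151.siegelTwC151 s 𝔫
  mahler := hMah
  ratFinite := H965.ratFiniteC965 K
  raySlab := H655.raySlabC655 K

/-- **T5.07 `LeafTwFinite`** from the output of tower T1 and `MahlerC`. -/
theorem leafTwFinite_of_mahler29 (s : AdelicAut K) (l : ℕ) (k : Subfield K) (𝔫 : Ideal (𝓞 K))
    (τ : G K → ℂ) (hT : T1.T1Out K) (hMah : MahlerC K) : LeafTwFinite s l k 𝔫 τ :=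
  leafTwFinite_of_leaves s l k 𝔫 τ hT (twLeaves_of_mahler29 s l k 𝔫 hMah)

/-- **T5.07 `LeafTwFinite`, CLOSED modulo the output of tower T1.** -/
theorem leafTwFinite29 (s : AdelicAut K) (l : ℕ) (k : Subfield K) (𝔫 : Ideal (𝓞 K))
    (τ : G K → ℂ) (hT : T1.T1Out K) : LeafTwFinite s l k 𝔫 τ :=
  leafTwFinite_of_mahler29 s l k 𝔫 τ hT (Fermat.Agent.LT.H501.mahlerC501 K)

end Fermat.Agent.LT.T5.H29

end
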